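import Mathlib
import Fermat.Agent.MU.Lib.BadRed.Mod.GaussSetupFinal
import Fermat.Agent.MU.Lib.BadRed.Final.Sep

section MergeWrap_S36_Val_Zero2 -- from S36/Val/Zero2.lean

set_option autoImplicit false
set_option linter.style.haveILetI false
set_option synthInstance.maxHeartbeats 400000

noncomputable section
attribute [local instance 10000] SubalgebraClass.toAlgebra HahnSeries.powerSeriesAlgebra

namespace Fermat.Agent.S36G

open ModularCurve AlgebraicCurve Fermat.Agent.F3 Fermat.Agent.F3G Fermat.Agent.GaussInt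
  Fermat.Agent.AtkinLehner Fermat.Agent.BadRed Fermat.Agent.Deuring Fermat.Agent.Kronecker

local notation "Qb" => AlgebraicClosure ℚ

section Series

variable (A : ValuationSubring Qb) {q : ℕ}

/-- in characteristic `q`: `y(t^{q^e}) = y ^ (q^e)` as soon as `y(t^q) = y^q`. -/
theorem qExpand_pow_of_qExpand {k : Type*} [Field k] (q : ℕ) [NeZero q]
    (y : LaurentSeries k) (hy : qExpand k q y = y ^ q) :
    ∀ (e : ℕ) [NeZero (q ^ e)], qExpand k (q ^ e) y = y ^ (q ^ e) := by
  intro e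
  induction e with
  | zero =>
    intro _
    rw [qExpand_congr (R := k) (pow_zero q) y, qExpand_one_apply, pow_zero, pow_one]
  | succ e ih =>
    intro _
    haveI : NeZero (q ^ e) := ⟨pow_ne_zero _ (NeZero.ne q)⟩
    haveI : NeZero (q ^ e * q) := ⟨Nat.mul_ne_zero (NeZero.ne _) (NeZero.ne q)⟩
    rw [qExpand_congr (R := k) (pow_succ q e) y, ← qExpand_qExpand, hy, map_pow, ih,
      ← pow_mul, pow_succ, mul_comm]

/-- **Kronecker, iterated**: `j̄(t^{q^e}) = j̄^{q^e}` in the residue characteristic `q`. -/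
theorem kc_qExpand_jbar_pow (hq : q.Prime) (hA : A.LiesOverPrime q) (e : ℕ) [NeZero (q ^ e)] :
    qExpand (IsLocalRing.ResidueField A) (q ^ e) (jqModC (IsLocalRing.ResidueField A)) =
      jqModC (IsLocalRing.ResidueField A) ^ (q ^ e) := by
  haveI : NeZero q := ⟨hq.ne_zero⟩
  exact qExpand_pow_of_qExpand q _ (kc_qExpand_jbar A hq hA) e

/-- `j(t^Q) - j^Q ≡ 0` for `Q = q^e`. -/
theorem red_sepSeries_Q_one_pow (hq : q.Prime) (hA : A.LiesOverPrime q) (e : ℕ)
    [NeZero (q ^ e)] : red A (sepSeries A (q ^ e) (q ^ e) 1) = 0 := by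
  rw [red_sepSeries, kc_qExpand_jbar_pow A hq hA e, qExpand_one_apply, sub_self]

/-- `j - j(t^Q)^Q ≡ j̄ - j̄^{Q²} ≠ 0` for `Q = q^e`, `e ≥ 1`. -/
theorem red_sepSeries_one_Q_ne_zero_pow (hq : q.Prime) (hA : A.LiesOverPrime q) (e : ℕ)
    (he : 0 < e) [NeZero (q ^ e)] : red A (sepSeries A (q ^ e) 1 (q ^ e)) ≠ 0 := by
  rw [red_sepSeries, kc_qExpand_jbar_pow A hq hA e, qExpand_one_apply, ← pow_mul]
  intro h
  have h1 := congrArg (fun g : LaurentSeries (IsLocalRing.ResidueField A) =>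
    g.coeff (-((q ^ e * q ^ e : ℕ) : ℤ))) h
  simp only [HahnSeries.coeff_sub, HahnSeries.coeff_zero] at h1
  rw [coeff_jqModC_pow_self] at h1
  have hlt : (-((q ^ e * q ^ e : ℕ) : ℤ)) < -1 := by
    have h2 : 2 ≤ q ^ e := le_trans hq.two_le (Nat.le_self_pow he.ne' q)
    have h3 : 4 ≤ q ^ e * q ^ e := by nlinarith
    have h4 : (4 : ℤ) ≤ ((q ^ e * q ^ e : ℕ) : ℤ) := by exact_mod_cast h3
    linarith
  rw [coeff_jqModC_of_lt _ hlt, zero_sub] at h1
  exact one_ne_zero (neg_eq_zero.mp h1)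

end Series

section Sep

variable (D : ALData) {q e : ℕ} (hq : q.Prime) (he : 0 < e) (hQ : D.Q = q ^ e)
  (A : ValuationSubring Qb) (hA : A.LiesOverPrime q)

include hq he hQ hA in
/-- **the separating element at a prime power level** `Q = q^e`: `E` is Gauss-integral with
residue `1`, `w_Q E` is Gauss-integral with residue `0`. -/
theorem gaussSepPow :
    ∃ E : FBar (D.Q * D.R),
      (E : LaurentSeries Qb) ∈ gaussSub A (modularFunctionFieldBar (D.Q * D.R)) ∧
      gaussResFun A (modularFunctionFieldBar (D.Q * D.R)) (E : LaurentSeries Qb) = 1 ∧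
      ((atkinLehner D E : FBar (D.Q * D.R)) : LaurentSeries Qb) ∈
          gaussSub A (modularFunctionFieldBar (D.Q * D.R)) ∧
      gaussResFun A (modularFunctionFieldBar (D.Q * D.R))
          ((atkinLehner D E : FBar (D.Q * D.R)) : LaurentSeries Qb) = 0 := by
  haveI hne : NeZero D.Q := ⟨D.hQ.ne'⟩
  haveI : NeZero (q ^ e) := ⟨by rw [← hQ]; exact D.hQ.ne'⟩
  have hX0 : red A (sepSeries A D.Q D.Q 1) = 0 := by
    have h := red_sepSeries_Q_one_pow A hq hA e
    rw [red_sepSeries] at h ⊢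
    rw [← h, qExpand_congr (R := IsLocalRing.ResidueField A) hQ]
    exact congrArg (fun n : ℕ => qExpand (IsLocalRing.ResidueField A) (q ^ e)
      (jqModC (IsLocalRing.ResidueField A)) -
        qExpand (IsLocalRing.ResidueField A) 1 (jqModC (IsLocalRing.ResidueField A)) ^ n) hQ
  have hζ : red A (sepSeries A D.Q 1 D.Q) ≠ 0 := by
    have h := red_sepSeries_one_Q_ne_zero_pow A hq hA e he
    rw [red_sepSeries] at h ⊢
    intro h0
    apply h
    rw [← h0, qExpand_congr (R := IsLocalRing.ResidueField A) hQ]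
    exact congrArg (fun n : ℕ => qExpand (IsLocalRing.ResidueField A) 1
      (jqModC (IsLocalRing.ResidueField A)) -
        qExpand (IsLocalRing.ResidueField A) (q ^ e)
          (jqModC (IsLocalRing.ResidueField A)) ^ n) hQ.symm
  -- the four reductions
  have hX : RedAt A (AlgEquiv.refl : FBar (D.Q * D.R) ≃ₐ[Qb] FBar (D.Q * D.R)) (sepX D) 0 := by
    have hmem : emb A (sepSeries A D.Q D.Q 1) ∈ modularFunctionFieldBar (D.Q * D.R) := by
      rw [← coe_sepX D A]
      exact (sepX D).2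
    refine ⟨?_, ?_⟩
    · show ((sepX D : FBar (D.Q * D.R)) : LaurentSeries Qb) ∈ _
      rw [coe_sepX D A]
      exact emb_mem_gaussSub hmem
    · show gaussResFun A _ ((sepX D : FBar (D.Q * D.R)) : LaurentSeries Qb) = 0
      rw [coe_sepX D A, gaussResFun_emb hmem]
      exact hX0
  have hZ := redAt_refl_sepZ D (A := A)
  have hwX := redAt_atkinLehner_sepX D (A := A)
  have hwZ : RedAt A (atkinLehner D) (sepZ D) 0 := by
    refine ⟨?_, ?_⟩
    · rw [atkinLehner_sepZ]
      exact hX.1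
    · rw [atkinLehner_sepZ]
      exact hX.2
  have h1 : RedAt A (AlgEquiv.refl : FBar (D.Q * D.R) ≃ₐ[Qb] FBar (D.Q * D.R))
      (sepZ D / (sepX D + sepZ D)) 1 := by
    have h := hZ.div (hX.add hZ) (by rw [zero_add]; exact hζ)
    rwa [zero_add, div_self hζ] at h
  have h2 : RedAt A (atkinLehner D) (sepZ D / (sepX D + sepZ D)) 0 := by
    have h := hwZ.div (hwX.add hwZ) (by rw [add_zero]; exact hζ)
    rwa [add_zero, zero_div] at h
  exact ⟨sepZ D / (sepX D + sepZ D), h1.1, h1.2, h2.1, h2.2⟩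

variable {N₀ : ℕ} [NeZero (D.Q * D.R)] [NeZero N₀]
  (S : ValSetup Qb (FBar (D.Q * D.R)) (IsLocalRing.ResidueField A)
    (modularFunctionFieldFullC (IsLocalRing.ResidueField A) N₀))

include hq he hQ hA in
/-- **VERT-0, incomparability**: at the level `q^e R` the Gauss valuation `v_∞` and
`v_0 = v_∞ ∘ w_{q^e}` are incomparable. -/
theorem not_le_valSetupZero_pow (hS : IsGaussSetup (D.Q * D.R) N₀ A S) :
    ¬ S.Ov ≤ (valSetupZero D S).Ov ∧ ¬ (valSetupZero D S).Ov ≤ S.Ov := by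
  obtain ⟨E, hE1, hE2, hE3, hE4⟩ := gaussSepPow D hq he hQ A hA
  have hEO : E ∈ S.Ov := (hS.mem_iff E).mpr hE1
  have hwEO : atkinLehner D E ∈ S.Ov := (hS.mem_iff _).mpr hE3
  have hred1 : S.red E = 1 := by
    apply Subtype.ext
    rw [hS.coe_red E hEO, hE2]
    exact (OneMemClass.coe_one _).symm
  have hred2 : S.red (atkinLehner D E) = 0 := by
    apply Subtype.ext
    rw [hS.coe_red _ hwEO, hE4]
    exact (ZeroMemClass.coe_zero _).symm
  have hEO₂ : E ∈ (valSetupZero D S).Ov := (mem_valSetupZero_Ov D S E).mpr hwEO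
  have hred3 : (valSetupZero D S).red E = 0 := by
    rw [valSetupZero_red, hred2]
  exact not_le_of_sep S (valSetupZero D S) E hEO hred1 hEO₂ hred3

end Sep

/-! ### old functions (level `R`) at `v_∞` and `v_0` -/

section Frob

variable (k : Type*) [Field k] (N₀ : ℕ) (q : ℕ) [Fact q.Prime] [CharP k q]
  [PerfectRing k q]

/-- `f(t ^ (q^e)) = (Frob⁻ᵉ f)(t) ^ (q^e)`. -/
theorem coe_frobAut_inv_pow_smul_pow (f : modularFunctionFieldFullC k N₀) :
    ∀ (e : ℕ) [NeZero (q ^ e)],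
      (((((frobAut k N₀ q)⁻¹ ^ e) • f) ^ (q ^ e) : modularFunctionFieldFullC k N₀) :
        LaurentSeries k) = qExpand k (q ^ e) (f : LaurentSeries k) := by
  haveI : NeZero q := ⟨(Fact.out : q.Prime).ne_zero⟩
  intro e
  induction e with
  | zero =>
    intro _
    rw [qExpand_congr (R := k) (pow_zero q), qExpand_one_apply, pow_zero, pow_zero, pow_one,
      one_smul]
  | succ e ih =>
    intro _
    haveI : NeZero (q ^ e) := ⟨pow_ne_zero _ (NeZero.ne q)⟩
    haveI : NeZero (q * q ^ e) := ⟨Nat.mul_ne_zero (NeZero.ne _) (NeZero.ne _)⟩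
    have h1 : (((frobAut k N₀ q)⁻¹ ^ (e + 1)) • f) ^ (q ^ (e + 1)) =
        (((frobAut k N₀ q)⁻¹ • (((frobAut k N₀ q)⁻¹ ^ e) • f)) ^ q) ^ (q ^ e) := by
      rw [pow_succ' ((frobAut k N₀ q)⁻¹) e, mul_smul, ← pow_mul, pow_succ']
    rw [h1]
    have h2 := coe_frobAut_inv_smul_pow k N₀ q (((frobAut k N₀ q)⁻¹ ^ e) • f)
    have h3 : ((((((frobAut k N₀ q)⁻¹ • (((frobAut k N₀ q)⁻¹ ^ e) • f)) ^ q) ^ (q ^ e) :
        modularFunctionFieldFullC k N₀)) : LaurentSeries k) =
        ((((frobAut k N₀ q)⁻¹ • (((frobAut k N₀ q)⁻¹ ^ e) • f)) ^ q :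
          modularFunctionFieldFullC k N₀) : LaurentSeries k) ^ (q ^ e) := rfl
    rw [h3, h2, ← map_pow]
    have h4 : ((((frobAut k N₀ q)⁻¹ ^ e) • f : modularFunctionFieldFullC k N₀) :
        LaurentSeries k) ^ (q ^ e) = qExpand k (q ^ e) (f : LaurentSeries k) := ih
    rw [h4, qExpand_qExpand]
    exact qExpand_congr (R := k) (pow_succ' q e).symm _

omit [PerfectRing k q] in
/-- value transport by the `e`-fold Frobenius. -/
theorem valAt_inv_pow_smul_pow {Fk : Type*} [Field Fk] [Algebra k Fk]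
    (τ : SemilinearAut k Fk) (hτ : ∀ c : k, SemilinearAut.baseAut τ c = c ^ q)
    (e : ℕ) (Q : Place k Fk) (y : Fk) (c : k) :
    ValAt Q (((τ⁻¹ ^ e) • y) ^ (q ^ e)) c ↔ ValAt ((τ ^ e) • Q) y c := by
  induction e generalizing Q y c with
  | zero => rw [pow_zero, pow_zero, pow_zero, pow_one, one_smul, one_smul]
  | succ e ih =>
    have h1 : ((τ⁻¹ ^ (e + 1)) • y) ^ (q ^ (e + 1)) =
        ((τ⁻¹ • (((τ⁻¹ ^ e) • y) ^ (q ^ e))) ^ q) := by
      rw [pow_succ' τ⁻¹ e, mul_smul, pow_succ, pow_mul, smul_pow']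
    rw [h1, valAt_inv_smul_pow q τ hτ, ih, ← mul_smul, ← pow_succ]

end Frob

section Old

variable (D : ALData) {q : ℕ} [NeZero D.Q] [NeZero D.R] [NeZero (D.Q * D.R)]
  (A : ValuationSubring Qb) (hq : q.Prime) (hA : A.LiesOverPrime q) (hqR : ¬ q ∣ D.R)
  (S : ValSetup Qb (modularFunctionFieldBar (D.Q * D.R)) (IsLocalRing.ResidueField A)
    (modularFunctionFieldFullC (IsLocalRing.ResidueField A) D.R))
  (hS : IsGaussSetup (D.Q * D.R) D.R A S)

include hS in
/-- (1a) an old Gauss-integral function is integral for `v_∞`. -/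
theorem alphaQ_mem_Ov_pow (g₀ : modularFunctionFieldBar D.R)
    (hg₀ : g₀ ∈ (modularValSetup A q D.R hq hA hqR).Ov) : alphaQ D g₀ ∈ S.Ov := by
  rw [hS.mem_iff, coe_alphaQ]
  exact gaussSub_mono_field (le_level_mul D)
    ((mem_modularValSetup_Ov_iff A q D.R hq hA hqR g₀).mp hg₀)

include hS in
/-- (1b) its `v_∞`-reduction is the reduction at level `R`. -/
theorem red_alphaQ_pow (g₀ : modularFunctionFieldBar D.R)
    (hg₀ : g₀ ∈ (modularValSetup A q D.R hq hA hqR).Ov) :
    S.red (alphaQ D g₀) = (modularValSetup A q D.R hq hA hqR).red g₀ := by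
  have hg₀' := (mem_modularValSetup_Ov_iff A q D.R hq hA hqR g₀).mp hg₀
  apply Subtype.ext
  rw [hS.coe_red _ (alphaQ_mem_Ov_pow D A hq hA hqR S hS g₀ hg₀), coe_alphaQ,
    coe_modularValSetup_red A q D.R hq hA hqR hg₀',
    gaussResFun_eq_of_le (le_level_mul D) hg₀']

include hS in
/-- (2a) an old Gauss-integral function is integral for `v_0`. -/
theorem alphaQ_mem_Ov_zero_pow (g₀ : modularFunctionFieldBar D.R)
    (hg₀ : g₀ ∈ (modularValSetup A q D.R hq hA hqR).Ov) :
    alphaQ D g₀ ∈ (valSetupZero D S).Ov := by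
  rw [mem_valSetupZero_Ov, atkinLehner_alphaQ, hS.mem_iff, coe_betaQ]
  exact qExpand_mem_gaussSub D.Q
    (fun x hx => qExpand_mem_level_mul D ⟨x, hx⟩)
    ((mem_modularValSetup_Ov_iff A q D.R hq hA hqR g₀).mp hg₀)

include hS in
/-- (2b) its `v_0`-reduction is `ḡ₀(t^Q)`. -/
theorem coe_red_zero_alphaQ_pow (g₀ : modularFunctionFieldBar D.R)
    (hg₀ : g₀ ∈ (modularValSetup A q D.R hq hA hqR).Ov) :
    (((valSetupZero D S).red (alphaQ D g₀) :
        modularFunctionFieldFullC (IsLocalRing.ResidueField A) D.R) :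
        LaurentSeries (IsLocalRing.ResidueField A)) =
      qExpand (IsLocalRing.ResidueField A) D.Q
        ((((modularValSetup A q D.R hq hA hqR).red g₀ :
          modularFunctionFieldFullC (IsLocalRing.ResidueField A) D.R) :
          LaurentSeries (IsLocalRing.ResidueField A))) := by
  have hg₀' := (mem_modularValSetup_Ov_iff A q D.R hq hA hqR g₀).mp hg₀
  have hmem := alphaQ_mem_Ov_zero_pow D A hq hA hqR S hS g₀ hg₀
  rw [mem_valSetupZero_Ov] at hmem
  rw [valSetupZero_red, hS.coe_red _ hmem, atkinLehner_alphaQ, coe_betaQ,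
    coe_modularValSetup_red A q D.R hq hA hqR hg₀',
    gaussResFun_qExpand D.Q (fun x hx => qExpand_mem_level_mul D ⟨x, hx⟩) hg₀']

include hS in
/-- (2c) the `v_0`-reduction of an old function is `(Frob⁻ᵉ ḡ₀) ^ (q^e)`. -/
theorem red_zero_alphaQ_eq_pow_pow [Fact q.Prime] [CharP (IsLocalRing.ResidueField A) q]
    [PerfectRing (IsLocalRing.ResidueField A) q] {e : ℕ} (hQ : D.Q = q ^ e)
    (g₀ : modularFunctionFieldBar D.R)
    (hg₀ : g₀ ∈ (modularValSetup A q D.R hq hA hqR).Ov) :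
    (valSetupZero D S).red (alphaQ D g₀) =
      (((frobAut (IsLocalRing.ResidueField A) D.R q)⁻¹ ^ e) •
        (modularValSetup A q D.R hq hA hqR).red g₀) ^ (q ^ e) := by
  haveI : NeZero (q ^ e) := ⟨by rw [← hQ]; exact NeZero.ne _⟩
  apply Subtype.ext
  rw [coe_red_zero_alphaQ_pow D A hq hA hqR S hS g₀ hg₀,
    coe_frobAut_inv_pow_smul_pow (IsLocalRing.ResidueField A) D.R q _ e]
  exact qExpand_congr hQ _

include hS in
/-- (3) VALUE TRANSPORT by the `e`-fold coefficientwise Frobenius. -/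
theorem valAt_red_zero_alphaQ_pow [Fact q.Prime] [CharP (IsLocalRing.ResidueField A) q]
    [PerfectRing (IsLocalRing.ResidueField A) q] {e : ℕ} (hQ : D.Q = q ^ e)
    (g₀ : modularFunctionFieldBar D.R)
    (hg₀ : g₀ ∈ (modularValSetup A q D.R hq hA hqR).Ov)
    (Q : Place (IsLocalRing.ResidueField A)
      (modularFunctionFieldFullC (IsLocalRing.ResidueField A) D.R))
    (c : IsLocalRing.ResidueField A) :
    ValAt Q ((valSetupZero D S).red (alphaQ D g₀)) c ↔
      ValAt ((frobAut (IsLocalRing.ResidueField A) D.R q ^ e) • Q)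
        ((modularValSetup A q D.R hq hA hqR).red g₀) c := by
  rw [red_zero_alphaQ_eq_pow_pow D A hq hA hqR S hS hQ g₀ hg₀]
  exact valAt_inv_pow_smul_pow (IsLocalRing.ResidueField A) q
    (frobAut (IsLocalRing.ResidueField A) D.R q)
    (baseAut_frobAut_apply (IsLocalRing.ResidueField A) D.R q) e Q _ c

end Old

end Fermat.Agent.S36G
end
end MergeWrap_S36_Val_Zero2
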